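import Mathlib

/-!
# Lattices in `ℂ`

The invariants `(g₂, g₃)` determine a lattice (`lattice_eq_of_g_eq`), and the Eisenstein sums of
`ℤ τ + ℤ` are the Eisenstein series.
-/

set_option autoImplicit false

noncomputable section

open Filter Topology

open scoped PeriodPair MatrixGroups

namespace Fermat.Agent.LevelOne

theorem rankOne_complex : 1 < Module.rank ℝ ℂ := by
  rw [Complex.rank_real_complex]; norm_num

/-- The auxiliary function `z² ℘(z)`, continued to `0`. -/
def sqMulP (L : PeriodPair) (z : ℂ) : ℂ := z ^ 2 * L.weierstrassPExcept 0 z + 1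

theorem analyticAt_sqMulP (L : PeriodPair) : AnalyticAt ℂ (sqMulP L) 0 := by
  unfold sqMulP
  fun_prop

theorem eventually_weierstrassP_eq (L : PeriodPair) :
    ∀ᶠ z in 𝓝[≠] (0 : ℂ), z ∉ L.lattice ∧ ℘[L] z = sqMulP L z / z ^ 2 := by
  filter_upwards [self_mem_nhdsWithin,
    mem_nhdsWithin_of_mem_nhds (L.compl_lattice_sdiff_singleton_mem_nhds 0)] with z hz hz'
  have hz0 : z ≠ 0 := hz
  refine ⟨by simp_all, ?_⟩
  have h := L.weierstrassPExcept_add ⟨0, zero_mem _⟩ z
  simp only [sub_zero] at h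
  rw [← h, sqMulP]
  field_simp
  simp

theorem sqMulP_relation (L : PeriodPair) :
    ∀ᶠ z in 𝓝[≠] (0 : ℂ), (z * deriv (sqMulP L) z - 2 * sqMulP L z) ^ 2 =
      4 * sqMulP L z ^ 3 - L.g₂ * z ^ 4 * sqMulP L z - L.g₃ * z ^ 6 := by
  have h1 : ∀ᶠ z in 𝓝[≠] (0 : ℂ), ℘[L] =ᶠ[𝓝 z] fun w => sqMulP L w / w ^ 2 := by
    have h := eventually_weierstrassP_eq L
    rw [eventually_nhdsWithin_iff, eventually_nhds_iff] at h
    obtain ⟨t, ht, hto, ht0⟩ := h
    rw [eventually_nhdsWithin_iff]
    filter_upwards [hto.mem_nhds ht0] with z hz hz0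
    filter_upwards [(hto.inter isOpen_compl_singleton).mem_nhds ⟨hz, hz0⟩] with w hw
    exact (ht w hw.1 hw.2).2
  filter_upwards [h1, eventually_weierstrassP_eq L, self_mem_nhdsWithin,
    mem_nhdsWithin_of_mem_nhds (analyticAt_sqMulP L).eventually_analyticAt] with z hz he hz0 han
  have hne : z ≠ 0 := hz0
  have hd : ℘'[L] z = (deriv (sqMulP L) z * z ^ 2 - sqMulP L z * (2 * z)) / (z ^ 2) ^ 2 := by
    rw [← L.deriv_weierstrassP, hz.deriv_eq]
    exact ((han.differentiableAt.hasDerivAt).fun_div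
      ((hasDerivAt_pow 2 z).congr_deriv (by norm_num))
      (pow_ne_zero 2 hne)).deriv
  have h := L.derivWeierstrassP_sq z he.1
  rw [hd, he.2] at h
  field_simp at h
  linear_combination h

/-- Lattices with the same invariants have the same `℘` near the origin. -/
theorem sqMulP_eventuallyEq {L M : PeriodPair} (h2 : L.g₂ = M.g₂) (h3 : L.g₃ = M.g₃) :
    sqMulP L =ᶠ[𝓝 0] sqMulP M := by
  set P := sqMulP L
  set Q := sqMulP M
  have hP : AnalyticAt ℂ P 0 := analyticAt_sqMulP L
  have hQ : AnalyticAt ℂ Q 0 := analyticAt_sqMulP M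
  have hP0 : P 0 = 1 := by simp [P, sqMulP]
  have hQ0 : Q 0 = 1 := by simp [Q, sqMulP]
  by_contra hne
  have htop : analyticOrderAt (P - Q) 0 ≠ ⊤ := by
    rw [Ne, analyticOrderAt_eq_top]
    intro h
    exact hne (h.mono fun z hz => sub_eq_zero.mp hz)
  obtain ⟨n, hn⟩ := ENat.ne_top_iff_exists.mp htop
  obtain ⟨e, he, he0, heq⟩ := (hP.sub hQ).analyticOrderAt_eq_natCast.mp hn.symm
  simp only [sub_zero, smul_eq_mul, Pi.sub_apply] at heq
  have hkey : ∀ᶠ z in 𝓝[≠] (0 : ℂ),
      (((n : ℂ) - 2) * e z + z * deriv e z) *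
          ((z * deriv P z - 2 * P z) + (z * deriv Q z - 2 * Q z)) =
        e z * (4 * (P z ^ 2 + P z * Q z + Q z ^ 2) - L.g₂ * z ^ 4) := by
    filter_upwards [sqMulP_relation L, sqMulP_relation M, self_mem_nhdsWithin,
      mem_nhdsWithin_of_mem_nhds heq.eventually_nhds,
      mem_nhdsWithin_of_mem_nhds hP.eventually_analyticAt,
      mem_nhdsWithin_of_mem_nhds hQ.eventually_analyticAt,
      mem_nhdsWithin_of_mem_nhds he.eventually_analyticAt] with z hL hM hz0 hz hPz hQz hez
    have hne : z ≠ 0 := hz0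
    have hval := hz.self_of_nhds
    have hder : deriv P z - deriv Q z = (n : ℂ) * z ^ (n - 1) * e z + z ^ n * deriv e z := by
      rw [← deriv_fun_sub hPz.differentiableAt hQz.differentiableAt,
        EventuallyEq.deriv_eq (f₁ := fun w => P w - Q w) (f := fun w => w ^ n * e w) hz]
      exact ((hasDerivAt_pow n z).mul hez.differentiableAt.hasDerivAt).deriv
    have hzn : (n : ℂ) * z ^ (n - 1) * z = (n : ℂ) * z ^ n := by
      rcases Nat.eq_zero_or_pos n with rfl | hpos
      · simp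
      · rw [mul_assoc, ← pow_succ, Nat.sub_add_cancel hpos]
    refine mul_left_cancel₀ (pow_ne_zero n hne) ?_
    rw [← h2, ← h3] at hM
    have hD : (z * deriv P z - 2 * P z) - (z * deriv Q z - 2 * Q z) =
        z ^ n * (((n : ℂ) - 2) * e z + z * deriv e z) := by
      linear_combination z * hder + e z * hzn - 2 * hval
    linear_combination (-((z * deriv P z - 2 * P z) + (z * deriv Q z - 2 * Q z))) * hD + hL - hM +
      (4 * (P z ^ 2 + P z * Q z + Q z ^ 2) - L.g₂ * z ^ 4) * hval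
  have h0 : ∀ᶠ z in 𝓝 (0 : ℂ),
      (((n : ℂ) - 2) * e z + z * deriv e z) *
          ((z * deriv P z - 2 * P z) + (z * deriv Q z - 2 * Q z)) =
        e z * (4 * (P z ^ 2 + P z * Q z + Q z ^ 2) - L.g₂ * z ^ 4) :=
    (ContinuousAt.eventuallyEq_nhds_iff_eventuallyEq_nhdsNE (by fun_prop) (by fun_prop)).mp hkey
  have h00 := h0.self_of_nhds
  simp only [zero_mul, zero_sub, hP0, hQ0, add_zero] at h00
  have : ((n : ℂ) + 1) * e 0 = 0 := by linear_combination (-1 / 4 : ℂ) * h00
  rcases mul_eq_zero.mp this with h | h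
  · exact Nat.cast_add_one_ne_zero n h
  · exact he0 h

theorem lattice_countable (L : PeriodPair) : (L.lattice : Set ℂ).Countable :=
  haveI : Countable L.lattice := L.latticeEquivProd.toEquiv.countable_iff.mpr inferInstance
  Set.countable_coe_iff.mp this

/-- `(g₂, g₃)` determine the lattice. -/
theorem lattice_eq_of_g_eq {L M : PeriodPair} (h2 : L.g₂ = M.g₂) (h3 : L.g₃ = M.g₃) :
    L.lattice = M.lattice := by
  set U : Set ℂ := ((L.lattice : Set ℂ) ∪ M.lattice)ᶜ
  have hU : IsPreconnected U :=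
    (((lattice_countable L).union (lattice_countable M)).isPathConnected_compl_of_one_lt_rank
      rankOne_complex).isConnected.isPreconnected
  have hLa : AnalyticOnNhd ℂ ℘[L] U :=
    L.analyticOnNhd_weierstrassP.mono fun z hz h => hz (Or.inl h)
  have hMa : AnalyticOnNhd ℂ ℘[M] U :=
    M.analyticOnNhd_weierstrassP.mono fun z hz h => hz (Or.inr h)
  have heq : Set.EqOn ℘[L] ℘[M] U := by
    have hev : ∀ᶠ z in 𝓝[≠] (0 : ℂ), z ∈ U ∧ ℘[L] z = ℘[M] z := by
      filter_upwards [eventually_weierstrassP_eq L, eventually_weierstrassP_eq M,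
        mem_nhdsWithin_of_mem_nhds (sqMulP_eventuallyEq h2 h3)] with z hL hM hz
      exact ⟨fun h => h.elim hL.1 hM.1, by rw [hL.2, hM.2]; exact congrArg (· / z ^ 2) hz⟩
    obtain ⟨t, ht, hto, ht0⟩ := eventually_nhds_iff.mp (eventually_nhdsWithin_iff.mp hev)
    obtain ⟨z₀, hz₀, hne⟩ : ∃ z₀ ∈ t, z₀ ≠ 0 := by
      obtain ⟨z₀, hz₀⟩ := Filter.nonempty_of_mem
        (Filter.inter_mem (mem_nhdsWithin_of_mem_nhds (hto.mem_nhds ht0))
          (self_mem_nhdsWithin (a := (0 : ℂ)) (s := {0}ᶜ)))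
      exact ⟨z₀, hz₀.1, hz₀.2⟩
    refine hLa.eqOn_of_preconnected_of_eventuallyEq hMa hU (ht z₀ hz₀ hne).1 ?_
    filter_upwards [(hto.inter isOpen_compl_singleton).mem_nhds ⟨hz₀, hne⟩] with z hz
    exact (ht z hz.1 hz.2).2
  have key : ∀ (L M : PeriodPair), Set.EqOn ℘[L] ℘[M] ((L.lattice : Set ℂ) ∪ M.lattice)ᶜ →
      L.lattice ≤ M.lattice := by
    intro L M h l hl
    by_contra hlM
    have hev : ℘[L] =ᶠ[𝓝[≠] l] ℘[M] := by
      filter_upwards [self_mem_nhdsWithin,
        mem_nhdsWithin_of_mem_nhds (L.compl_lattice_sdiff_singleton_mem_nhds l),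
        mem_nhdsWithin_of_mem_nhds (M.isClosed_lattice.isOpen_compl.mem_nhds hlM)] with z hz h1 h2
      exact h fun hz' => hz'.elim (fun h3 => h1 ⟨h3, hz⟩) h2
    have h1 := L.order_weierstrassP l hl
    rw [meromorphicOrderAt_congr hev] at h1
    have h2 := (M.analyticOnNhd_weierstrassP l hlM).meromorphicOrderAt_nonneg
    rw [h1] at h2
    exact absurd h2 (by decide)
  refine le_antisymm (key L M heq) (key M L ?_)
  rw [Set.union_comm]
  exact heq.symm

/-- The period pair `(τ, 1)`. -/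
def tauPair (τ : UpperHalfPlane) : PeriodPair where
  ω₁ := τ
  ω₂ := 1
  indep := by
    rw [LinearIndependent.pair_iff]
    intro s t hst
    have him := congrArg Complex.im hst
    have hre := congrArg Complex.re hst
    simp at him hre
    have hs : s = 0 := by
      rcases him with h | h
      · exact h
      · exact absurd h τ.im_ne_zero
    exact ⟨hs, by simpa [hs] using hre⟩

/-- The period pair scaled by a non-zero constant. -/
def scalePair (L : PeriodPair) {c : ℂ} (hc : c ≠ 0) : PeriodPair where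
  ω₁ := c * L.ω₁
  ω₂ := c * L.ω₂
  indep := by
    rw [LinearIndependent.pair_iff]
    intro s t hst
    refine LinearIndependent.pair_iff.mp L.indep s t (mul_left_cancel₀ hc ?_)
    simp only [Complex.real_smul, mul_zero] at hst ⊢
    linear_combination hst

theorem G_eq_tsum_prod (L : PeriodPair) (n : ℕ) :
    L.G n = ∑' x : ℤ × ℤ, (((x.1 : ℂ) * L.ω₁ + x.2 * L.ω₂) ^ n)⁻¹ := by
  rw [PeriodPair.G, ← L.latticeEquivProd.symm.toEquiv.tsum_eq]
  simp [PeriodPair.latticeEquiv_symm_apply]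

theorem G_scalePair (L : PeriodPair) {c : ℂ} (hc : c ≠ 0) (n : ℕ) :
    (scalePair L hc).G n = (c ^ n)⁻¹ * L.G n := by
  rw [G_eq_tsum_prod, G_eq_tsum_prod, ← tsum_mul_left]
  refine tsum_congr fun x => ?_
  simp only [scalePair]
  rw [← mul_inv, ← mul_pow]
  ring_nf

theorem G_tauPair {k : ℕ} (hk : 3 ≤ k) (τ : UpperHalfPlane) :
    (tauPair τ).G k = 2 * riemannZeta k * ModularForm.E hk τ := by
  rw [G_eq_tsum_prod]
  have h := tsum_eisSummand_eq_riemannZeta_mul_eisensteinSeries hk τ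
  rw [← (finTwoArrowEquiv ℤ).symm.tsum_eq] at h
  refine Eq.trans ?_ (h.trans ?_)
  · refine tsum_congr fun x => ?_
    simp [EisensteinSeries.eisSummand, tauPair]
  · rw [show ModularForm.E hk τ =
      (1 / 2 : ℂ) • EisensteinSeries.eisensteinSeriesSIF (N := 1) 0 k τ from rfl,
      EisensteinSeries.eisensteinSeriesSIF_apply, smul_eq_mul]
    ring

end Fermat.Agent.LevelOne
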