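import Fermat.Agent.LevelOne.Ramanujan
import Fermat.Agent.LevelOne.Lattice

/-!
# `j` as a map on orbits

`j` is a bijection from the `SL(2, ℤ)`-orbits on `ℍ` onto `ℂ`; the zeros of `E₄` and `E₆`, and
the local degrees of `j`.
-/

set_option autoImplicit false

noncomputable section

open UpperHalfPlane ModularForm EisensteinSeries Filter Topology Function
open scoped MatrixGroups Manifold Real

namespace Fermat.Agent.LevelOne

theorem int_coords_eq (τ : ℍ) {a b c d : ℤ} (h : (a : ℂ) * τ + b = c * τ + d) :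
    a = c ∧ b = d := by
  have him := congrArg Complex.im h
  have hre := congrArg Complex.re h
  simp at him hre
  have hac : a = c := by
    rcases him with h | h
    · exact_mod_cast h
    · exact absurd h τ.im_ne_zero
  subst hac
  exact ⟨rfl, by simpa using hre⟩

theorem exists_smul_eq_of_lattice_eq {τ τ' : ℍ} {c : ℂ} (hc : c ≠ 0)
    (h : (scalePair (tauPair τ') hc).lattice = (tauPair τ).lattice) :
    ∃ γ : SL(2, ℤ), γ • τ = τ' := by
  have h1 : c * τ' ∈ (tauPair τ).lattice := h ▸ (scalePair (tauPair τ') hc).ω₁_mem_lattice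
  have h2 : c * 1 ∈ (tauPair τ).lattice := h ▸ (scalePair (tauPair τ') hc).ω₂_mem_lattice
  have h3 : (τ : ℂ) ∈ (scalePair (tauPair τ') hc).lattice := h ▸ (tauPair τ).ω₁_mem_lattice
  have h4 : (1 : ℂ) ∈ (scalePair (tauPair τ') hc).lattice := h ▸ (tauPair τ).ω₂_mem_lattice
  obtain ⟨a, b, hab⟩ := PeriodPair.mem_lattice.mp h1
  obtain ⟨c', d, hcd⟩ := PeriodPair.mem_lattice.mp h2
  obtain ⟨p, r, hpr⟩ := PeriodPair.mem_lattice.mp h3
  obtain ⟨s, t, hst⟩ := PeriodPair.mem_lattice.mp h4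
  simp only [scalePair, tauPair, mul_one] at hab hcd hpr hst
  obtain ⟨e1, e2⟩ := int_coords_eq τ (a := p * a + r * c') (b := p * b + r * d) (c := 1) (d := 0)
    (by push_cast; linear_combination hpr + (p : ℂ) * hab + (r : ℂ) * hcd)
  obtain ⟨e3, e4⟩ := int_coords_eq τ (a := s * a + t * c') (b := s * b + t * d) (c := 0) (d := 1)
    (by push_cast; linear_combination hst + (s : ℂ) * hab + (t : ℂ) * hcd)
  have hden : (c' : ℂ) * τ + d ≠ 0 := by rw [hcd]; exact hc
  have hτ' : (τ' : ℂ) = ((a : ℂ) * τ + b) / ((c' : ℂ) * τ + d) := by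
    rw [hab, hcd, mul_div_cancel_left₀ _ hc]
  have hdet : (a * d - b * c') * (p * t - r * s) = 1 := by
    linear_combination (s * b + t * d) * e1 + e4 - (s * a + t * c') * e2
  have hpos : 0 < a * d - b * c' := by
    have him : τ'.im = ((a * d - b * c' : ℤ) : ℝ) * τ.im / Complex.normSq ((c' : ℂ) * τ + d) := by
      rw [← UpperHalfPlane.coe_im, hτ', Complex.div_im]
      simp
      ring
    have hN : 0 < Complex.normSq ((c' : ℂ) * τ + d) := Complex.normSq_pos.mpr hden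
    have hp := τ'.im_pos
    rw [him, lt_div_iff₀ hN, zero_mul] at hp
    exact_mod_cast (pos_iff_pos_of_mul_pos hp).mpr τ.im_pos
  have hdet1 : a * d - b * c' = 1 :=
    Int.eq_one_of_mul_eq_one_right hpos.le hdet
  refine ⟨⟨!![a, b; c', d], by simp [Matrix.det_fin_two, hdet1]⟩, UpperHalfPlane.ext ?_⟩
  rw [UpperHalfPlane.coe_specialLinearGroup_apply, hτ']
  simp

theorem exists_scalar_E₄_E₆ {τ τ' : ℍ} (h : jFun τ' = jFun τ) :
    ∃ c : ℂ, c ≠ 0 ∧ E₄ τ' = c ^ 4 * E₄ τ ∧ E₆ τ' = c ^ 6 * E₆ τ := by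
  set μ : ℂ := ModularForm.discriminant τ' / ModularForm.discriminant τ with hμ
  have hμ0 : μ ≠ 0 := div_ne_zero (discriminant_ne_zero _) (discriminant_ne_zero _)
  have h4 : E₄ τ' ^ 3 = μ * E₄ τ ^ 3 := by
    rw [← jFun_mul_discriminant, ← jFun_mul_discriminant, h, hμ]
    field_simp [discriminant_ne_zero τ]
  have h6 : E₆ τ' ^ 2 = μ * E₆ τ ^ 2 := by
    have h1 := discriminant_eq_E₄_cube_sub_E₆_sq τ'
    have h2 := discriminant_eq_E₄_cube_sub_E₆_sq τ
    have h3 : ModularForm.discriminant τ' = μ * ModularForm.discriminant τ :=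
      (div_mul_cancel₀ _ (discriminant_ne_zero _)).symm
    linear_combination h4 + 1728 * h1 - 1728 * h3 - 1728 * μ * h2
  obtain ⟨c₀, hc₀⟩ := IsAlgClosed.exists_pow_nat_eq μ (by norm_num : 0 < 12)
  have hc₀' : c₀ ≠ 0 := fun h => hμ0 (by rw [← hc₀, h, zero_pow (by norm_num)])
  -- fix the fourth power
  obtain ⟨c₁, hc₁, hc₁12, hE4⟩ : ∃ c₁ : ℂ, c₁ ≠ 0 ∧ c₁ ^ 12 = μ ∧ E₄ τ' = c₁ ^ 4 * E₄ τ := by
    rcases eq_or_ne (E₄ τ) 0 with h0 | h0
    · refine ⟨c₀, hc₀', hc₀, ?_⟩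
      rw [h0, mul_zero]
      rw [h0, zero_pow three_ne_zero, mul_zero] at h4
      exact eq_zero_of_pow_eq_zero h4
    · set ω : ℂ := E₄ τ' / (c₀ ^ 4 * E₄ τ) with hω
      have hω3 : ω ^ 3 = 1 := by
        rw [hω, div_pow, h4, ← hc₀]
        field_simp
      refine ⟨ω * c₀, mul_ne_zero ?_ hc₀', ?_, ?_⟩
      · intro hz
        rw [hz] at hω3
        norm_num at hω3
      · linear_combination c₀ ^ 12 * (ω ^ 9 + ω ^ 6 + ω ^ 3 + 1) * hω3 + hc₀
      · calc E₄ τ' = ω * (c₀ ^ 4 * E₄ τ) := by rw [hω, div_mul_cancel₀ _ (by simp [hc₀', h0])]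
          _ = (ω * c₀) ^ 4 * E₄ τ := by linear_combination (-(ω * c₀ ^ 4 * E₄ τ)) * hω3
  -- fix the sixth power
  have h6' : E₆ τ' ^ 2 = (c₁ ^ 6 * E₆ τ) ^ 2 := by linear_combination h6 - E₆ τ ^ 2 * hc₁12
  rcases sq_eq_sq_iff_eq_or_eq_neg.mp h6' with h | h
  · exact ⟨c₁, hc₁, hE4, h⟩
  · refine ⟨Complex.I * c₁, mul_ne_zero Complex.I_ne_zero hc₁, ?_, ?_⟩
    · rw [mul_pow, Complex.I_pow_four, one_mul]; exact hE4
    · rw [mul_pow, show (Complex.I : ℂ) ^ 6 = -1 by
        rw [show 6 = 4 + 2 from rfl, pow_add, Complex.I_pow_four, Complex.I_sq, one_mul]]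
      linear_combination h

/-- `j` separates `SL₂(ℤ)`-orbits. -/
theorem exists_smul_eq_of_jFun_eq {τ τ' : ℍ} (h : jFun τ = jFun τ') :
    ∃ γ : SL(2, ℤ), γ • τ = τ' := by
  obtain ⟨c, hc, h4, h6⟩ := exists_scalar_E₄_E₆ h.symm
  refine exists_smul_eq_of_lattice_eq hc (lattice_eq_of_g_eq ?_ ?_)
  · simp only [PeriodPair.g₂, G_scalePair, G_tauPair (k := 4) (by norm_num)]
    rw [show (ModularForm.E _ : ModularForm 𝒮ℒ 4) τ' = E₄ τ' from rfl, h4]
    field_simp
  · simp only [PeriodPair.g₃, G_scalePair, G_tauPair (k := 6) (by norm_num)]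
    rw [show (ModularForm.E _ : ModularForm 𝒮ℒ 6) τ' = E₆ τ' from rfl, h6]
    field_simp

/-- `j τ = j τ'` exactly when `τ` and `τ'` are in one orbit. -/
theorem jFun_eq_iff {τ τ' : ℍ} : jFun τ = jFun τ' ↔ ∃ γ : SL(2, ℤ), γ • τ = τ' :=
  ⟨exists_smul_eq_of_jFun_eq, fun ⟨γ, hγ⟩ => hγ ▸ (jFun_smul γ τ).symm⟩

/-- `j : ℍ → ℂ` is surjective. -/
theorem jFun_surjective : Surjective jFun := by
  intro z
  by_contra hz
  push Not at hz
  set g : ModularForm 𝒮ℒ 12 := ModularForm.mcast (by norm_num) (E₄.pow 3) -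
    z • (CuspForm.equivCuspFormSubmodule 𝒮ℒ 12 CuspForm.discriminant : ModularForm 𝒮ℒ 12) with hg
  have hgτ : ∀ τ, g τ = (jFun τ - z) * ModularForm.discriminant τ := fun τ => by
    rw [sub_mul, jFun_mul_discriminant, hg]
    rfl
  have hg0 : ∀ τ, g τ ≠ 0 := fun τ => by
    rw [hgτ]
    exact mul_ne_zero (sub_ne_zero.mpr (hz τ)) (discriminant_ne_zero τ)
  have hD : Tendsto ModularForm.discriminant atImInfty (𝓝 0) := discriminant_isZeroAtImInfty
  have hg1 : Tendsto (fun τ => g τ) atImInfty (𝓝 1) := by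
    have hE : Tendsto (fun τ => E₄ τ) atImInfty (𝓝 1) := by
      simpa [E_qExpansion_coeff_zero _ ⟨2, rfl⟩] using tendsto_atImInfty_modularForm E₄
    have h := (hE.pow 3).sub (hD.const_mul z)
    simp only [one_pow, mul_zero, sub_zero] at h
    exact h.congr fun τ => by rw [hgτ, sub_mul, jFun_mul_discriminant]
  have hlim : Tendsto (fun τ => ModularForm.discriminant τ / g τ) atImInfty (𝓝 0) := by
    simpa using! hD.div hg1 one_ne_zero
  let q : ModularForm 𝒮ℒ 0 :=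
    { toFun := fun τ => ModularForm.discriminant τ / g τ
      slash_action_eq' := by
        rintro _ ⟨γ, rfl⟩
        show (⇑CuspForm.discriminant / ⇑g) ∣[((12 : ℤ) - 12)] γ = _
        simp_rw [div_slash_SL2, SL_slash, SlashInvariantFormClass.slash_action_eq _ _
          (show (γ : GL (Fin 2) ℝ) ∈ 𝒮ℒ from ⟨γ, rfl⟩)]
        rfl
      holo' := fun τ => CuspForm.discriminant.holo'.div g.holo' hg0 τ
      bdd_at_cusps' := fun {c} hc => by
        rw [Subgroup.IsArithmetic.isCusp_iff_isCusp_SL2Z] at hc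
        rw [OnePoint.isBoundedAt_iff_forall_SL2Z hc]
        intro γ _
        have h : (⇑CuspForm.discriminant / ⇑g) ∣[(0 : ℤ)] γ = ⇑CuspForm.discriminant / ⇑g := by
          rw [show (0 : ℤ) = 12 - 12 from rfl, div_slash_SL2]
          simp_rw [SL_slash, SlashInvariantFormClass.slash_action_eq _ _
            (show (γ : GL (Fin 2) ℝ) ∈ 𝒮ℒ from ⟨γ, rfl⟩)]
        show IsBoundedAtImInfty ((⇑CuspForm.discriminant / ⇑g) ∣[(0 : ℤ)] γ)
        rw [h]
        exact hlim.isBigO_one ℝ }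
  obtain ⟨c, hc⟩ := ModularFormClass.levelOne_weight_zero_const q
  have hc' : ∀ τ, ModularForm.discriminant τ / g τ = c := fun τ => congrFun hc τ
  have : c = 0 :=
    tendsto_nhds_unique (tendsto_const_nhds.congr fun τ => (hc' τ).symm) hlim
  simp_all [discriminant_ne_zero]

/-- `ρ = e^{2πi/3}`. -/
def rho : ℍ := ⟨⟨-1 / 2, Real.sqrt 3 / 2⟩, by positivity⟩

theorem rho_sq_add : (rho : ℂ) ^ 2 + rho + 1 = 0 := by
  have h3 : Real.sqrt 3 * Real.sqrt 3 = 3 := Real.mul_self_sqrt (by norm_num)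
  apply Complex.ext
  · simp [rho, pow_two]; linarith
  · simp [rho, pow_two]; ring

theorem E₄_rho : E₄ rho = 0 := by
  let γ : SL(2, ℤ) := ⟨!![0, -1; 1, 1], by simp [Matrix.det_fin_two]⟩
  have hden : UpperHalfPlane.denom γ rho = rho + 1 := by
    simp [UpperHalfPlane.denom, γ]
  have hfix : γ • rho = rho := by
    have hne : (rho : ℂ) + 1 ≠ 0 := hden ▸ UpperHalfPlane.denom_ne_zero _ _
    refine UpperHalfPlane.ext ?_
    rw [UpperHalfPlane.coe_specialLinearGroup_apply]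
    simp [γ]
    rw [div_eq_iff hne]
    linear_combination (-1 : ℂ) * rho_sq_add
  have h := congrFun (SlashInvariantFormClass.slash_action_eq E₄ (γ : GL (Fin 2) ℝ) ⟨γ, rfl⟩) rho
  rw [← SL_slash, SL_slash_apply, hfix, hden] at h
  have h3 : ((rho : ℂ) + 1) ^ (-4 : ℤ) = -1 / ((rho : ℂ) + 1) := by
    have hne : (rho : ℂ) + 1 ≠ 0 := hden ▸ UpperHalfPlane.denom_ne_zero _ _
    rw [zpow_neg, show (4 : ℤ) = ((4 : ℕ) : ℤ) from rfl, zpow_natCast]
    field_simp
    linear_combination ((rho : ℂ) + 2) * rho_sq_add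
  rw [h3] at h
  have h' : E₄ rho * ((rho : ℂ) + 2) = 0 := by
    have hne : (rho : ℂ) + 1 ≠ 0 := hden ▸ UpperHalfPlane.denom_ne_zero _ _
    field_simp at h
    linear_combination -h
  rcases mul_eq_zero.mp h' with h0 | h0
  · exact h0
  · have := congrArg Complex.im h0
    simp [rho] at this

theorem E₆_I : E₆ UpperHalfPlane.I = 0 := by
  have hfix : ModularGroup.S • UpperHalfPlane.I = UpperHalfPlane.I :=
    UpperHalfPlane.ext (by rw [UpperHalfPlane.modular_S_smul]; simp)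
  have h := congrFun (SlashInvariantFormClass.slash_action_eq E₆
    (ModularGroup.S : GL (Fin 2) ℝ) ⟨_, rfl⟩) UpperHalfPlane.I
  rw [← SL_slash, SL_slash_apply, hfix, ModularGroup.denom_S] at h
  rw [zpow_neg, zpow_ofNat] at h
  simp [
    show (Complex.I : ℂ) ^ 6 = -1 by
      rw [show 6 = 4 + 2 from rfl, pow_add, Complex.I_pow_four, Complex.I_sq, one_mul]] at h
  linear_combination (-1 / 2 : ℂ) * h

theorem jFun_eq_zero_iff {τ : ℍ} : jFun τ = 0 ↔ E₄ τ = 0 := by
  simp [jFun, discriminant_ne_zero]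

theorem jFun_rho : jFun rho = 0 := jFun_eq_zero_iff.mpr E₄_rho

theorem jFun_eq_1728_iff {τ : ℍ} : jFun τ = 1728 ↔ E₆ τ = 0 := by
  rw [jFun, div_eq_iff (discriminant_ne_zero τ), discriminant_eq_E₄_cube_sub_E₆_sq τ]
  constructor
  · intro h
    exact eq_zero_of_pow_eq_zero (n := 2) (by linear_combination h)
  · intro h
    rw [h]; ring

theorem jFun_I : jFun UpperHalfPlane.I = 1728 := jFun_eq_1728_iff.mpr E₆_I

/-- The zeros of `E₄` form the orbit of `ρ`. -/
theorem E₄_eq_zero_iff {τ : ℍ} : E₄ τ = 0 ↔ ∃ γ : SL(2, ℤ), γ • rho = τ := by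
  rw [← jFun_eq_zero_iff, ← jFun_eq_iff, jFun_rho, eq_comm]

theorem not_E₄_and_E₆_eq_zero (τ : ℍ) : ¬(E₄ τ = 0 ∧ E₆ τ = 0) := fun ⟨h4, h6⟩ =>
  discriminant_ne_zero τ (by rw [discriminant_eq_E₄_cube_sub_E₆_sq, h4, h6]; simp)

theorem analyticAt_modularForm {k : ℤ} (f : ModularForm 𝒮ℒ k) (τ : ℍ) :
    AnalyticAt ℂ (f ∘ ofComplex) τ :=
  (UpperHalfPlane.mdifferentiable_iff.mp f.holo').analyticAt
    (isOpen_upperHalfPlaneSet.mem_nhds τ.im_pos)

theorem analyticAt_jFun (τ : ℍ) : AnalyticAt ℂ (jFun ∘ ofComplex) τ :=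
  (UpperHalfPlane.mdifferentiable_iff.mp mdifferentiable_jFun).analyticAt
    (isOpen_upperHalfPlaneSet.mem_nhds τ.im_pos)

theorem analyticOrderAt_of_deriv_ne_zero {f : ℂ → ℂ} {z : ℂ} (hf : AnalyticAt ℂ f z)
    {f' : ℂ} (hd : HasDerivAt f f' z) (hne : f' ≠ 0) :
    analyticOrderAt (fun w => f w - f z) z = 1 :=
  hf.analyticOrderAt_sub_eq_one_of_deriv_ne_zero (by rw [hd.deriv]; exact hne)

/-- The zeros of `E₄` are simple. -/
theorem analyticOrderAt_E₄ {τ : ℍ} (h : E₄ τ = 0) :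
    analyticOrderAt (E₄ ∘ ofComplex) τ = 1 := by
  have hd := hasDerivAt_E₄ τ
  rw [h] at hd
  have := analyticOrderAt_of_deriv_ne_zero (analyticAt_modularForm E₄ τ) hd ?_
  · simpa [ofComplex_apply, h, Function.comp_def] using this
  · have h6 : E₆ τ ≠ 0 := fun h6 => not_E₄_and_E₆_eq_zero τ ⟨h, h6⟩
    simp [Real.pi_ne_zero, h6]

/-- The zeros of `E₆` are simple. -/
theorem analyticOrderAt_E₆ {τ : ℍ} (h : E₆ τ = 0) :
    analyticOrderAt (E₆ ∘ ofComplex) τ = 1 := by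
  have hd := hasDerivAt_E₆ τ
  rw [h] at hd
  have := analyticOrderAt_of_deriv_ne_zero (analyticAt_modularForm E₆ τ) hd ?_
  · simpa [ofComplex_apply, h, Function.comp_def] using this
  · have h4 : E₄ τ ≠ 0 := fun h4 => not_E₄_and_E₆_eq_zero τ ⟨h4, h⟩
    simp [Real.pi_ne_zero, h4]

/-- Away from the two elliptic orbits `j` is unramified. -/
theorem analyticOrderAt_jFun_sub {τ : ℍ} (h4 : E₄ τ ≠ 0) (h6 : E₆ τ ≠ 0) :
    analyticOrderAt (fun w => jFun (ofComplex w) - jFun τ) τ = 1 := by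
  have := analyticOrderAt_of_deriv_ne_zero (analyticAt_jFun τ) (hasDerivAt_jFun τ)
    (by simp [Real.pi_ne_zero, h4, h6, discriminant_ne_zero])
  simpa [ofComplex_apply, Function.comp_def] using this

theorem analyticAt_discriminant (τ : ℍ) :
    AnalyticAt ℂ (ModularForm.discriminant ∘ ofComplex) τ :=
  (UpperHalfPlane.mdifferentiable_iff.mp CuspForm.discriminant.holo').analyticAt
    (isOpen_upperHalfPlaneSet.mem_nhds τ.im_pos)

theorem analyticOrderAt_div_discriminant (f : ℂ → ℂ) (τ : ℍ) (hf : AnalyticAt ℂ f τ) :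
    analyticOrderAt (fun w => f w / ModularForm.discriminant (ofComplex w)) τ =
      analyticOrderAt f τ := by
  have hD := analyticAt_discriminant τ
  have h0 : ModularForm.discriminant (ofComplex (τ : ℂ)) ≠ 0 := discriminant_ne_zero _
  have hinv : AnalyticAt ℂ (fun w => (ModularForm.discriminant (ofComplex w))⁻¹) τ := hD.inv h0
  simp only [div_eq_mul_inv]
  rw [show (fun w => f w * (ModularForm.discriminant (ofComplex w))⁻¹) =
    f * fun w => (ModularForm.discriminant (ofComplex w))⁻¹ from rfl, analyticOrderAt_mul hf hinv,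
    hinv.analyticOrderAt_eq_zero.mpr (inv_ne_zero h0), add_zero]

/-- At the orbit of `ρ`, `j` has local degree 3. -/
theorem analyticOrderAt_jFun_of_E₄_eq_zero {τ : ℍ} (h : E₄ τ = 0) :
    analyticOrderAt (fun w => jFun (ofComplex w) - jFun τ) τ = 3 := by
  have hE := analyticAt_modularForm E₄ τ
  have h1 : (fun w => jFun (ofComplex w) - jFun τ) =
      fun w => ((E₄ ∘ ofComplex) ^ 3) w / ModularForm.discriminant (ofComplex w) := by
    funext w
    rw [jFun_eq_zero_iff.mpr h, sub_zero]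
    rfl
  rw [h1, analyticOrderAt_div_discriminant _ τ (hE.pow 3), analyticOrderAt_pow hE,
    analyticOrderAt_E₄ h]
  rfl

/-- At the orbit of `i`, `j` has local degree 2. -/
theorem analyticOrderAt_jFun_of_E₆_eq_zero {τ : ℍ} (h : E₆ τ = 0) :
    analyticOrderAt (fun w => jFun (ofComplex w) - jFun τ) τ = 2 := by
  have hE := analyticAt_modularForm E₆ τ
  have h1 : (fun w => jFun (ofComplex w) - jFun τ) =
      fun w => ((E₆ ∘ ofComplex) ^ 2) w / ModularForm.discriminant (ofComplex w) := by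
    funext w
    rw [jFun_eq_1728_iff.mpr h, jFun, div_sub' (discriminant_ne_zero _)]
    congr 1
    rw [discriminant_eq_E₄_cube_sub_E₆_sq]
    simp
  rw [h1, analyticOrderAt_div_discriminant _ τ (hE.pow 2), analyticOrderAt_pow hE,
    analyticOrderAt_E₆ h]
  rfl

end Fermat.Agent.LevelOne
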