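import Mathlib

/-!
# Automorphisms of `ℂ`

Automorphisms of `ℂ` extend embeddings of countable fields, fix only the rational numbers, and a
finite-dimensional stable subspace of a coordinate space has a rational basis.
-/

set_option autoImplicit false

noncomputable section

open Cardinal

namespace Fermat.Agent.LevelOne

theorem exists_ringEquiv_extending_of_transcendenceBasis {F K L : Type*} [Field F] [Field K]
    [Field L] [Algebra F K] [Algebra F L] [IsAlgClosed K] [IsAlgClosed L] {ι κ : Type*}
    {v : ι → K} {w : κ → L} (e : ι ≃ κ) (hv : IsTranscendenceBasis F v)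
    (hw : IsTranscendenceBasis F w) :
    ∃ σ : K ≃+* L, ∀ x : F, σ (algebraMap F K x) = algebraMap F L x := by
  let := IsAlgClosed.isAlgClosure_of_transcendence_basis v hv
  let := IsAlgClosed.isAlgClosure_of_transcendence_basis w hw
  let e' : Algebra.adjoin F (Set.range v) ≃ₐ[F] Algebra.adjoin F (Set.range w) :=
    (hv.1.aevalEquiv.symm.trans (MvPolynomial.renameEquiv F e)).trans hw.1.aevalEquiv
  refine ⟨IsAlgClosure.equivOfEquiv K L e'.toRingEquiv, fun x => ?_⟩
  have h := IsAlgClosure.equivOfEquiv_algebraMap K L e'.toRingEquiv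
    (algebraMap F (Algebra.adjoin F (Set.range v)) x)
  rw [← IsScalarTower.algebraMap_apply] at h
  rw [h, AlgEquiv.coe_ringEquiv, AlgEquiv.commutes,
    ← IsScalarTower.algebraMap_apply]

/-- Any two embeddings of a countable field into `ℂ` differ by an automorphism of `ℂ`. -/
theorem exists_ringEquiv_complex_extending {F : Type} [Field F] [Countable F]
    (ι φ : F →+* ℂ) : ∃ σ : ℂ ≃+* ℂ, ∀ x, σ (ι x) = φ x := by
  have hF : #F ≤ ℵ₀ := mk_le_aleph0
  have hC : ℵ₀ < #ℂ := by rw [mk_complex]; exact aleph0_lt_continuum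
  have key : ∀ g : F →+* ℂ, ∃ s : Set ℂ,
      (letI := g.toAlgebra; IsTranscendenceBasis F ((↑) : s → ℂ)) ∧ #ℂ = #s := fun g => by
    let := g.toAlgebra
    obtain ⟨s, hs⟩ := exists_isTranscendenceBasis F ℂ
    exact ⟨s, hs, IsAlgClosed.cardinal_eq_cardinal_transcendence_basis_of_aleph0_lt' _ hs hF hC⟩
  obtain ⟨s, hs, h1⟩ := key ι
  obtain ⟨t, ht, h2⟩ := key φ
  obtain ⟨e⟩ := Cardinal.eq.mp (h1.symm.trans h2)
  exact @exists_ringEquiv_extending_of_transcendenceBasis F ℂ ℂ _ _ _ ι.toAlgebra φ.toAlgebra
    _ _ _ _ _ _ e hs ht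

/-- A complex number fixed by every automorphism of `ℂ` is rational. -/
theorem exists_rat_eq_of_forall_ringEquiv_fixed {z : ℂ} (h : ∀ σ : ℂ ≃+* ℂ, σ z = z) :
    ∃ r : ℚ, (r : ℂ) = z := by
  have : Countable (Polynomial ℚ) := mk_le_aleph0_iff.mp
    (Polynomial.cardinalMk_le_max.trans (max_le mk_le_aleph0 le_rfl))
  by_cases hz : IsAlgebraic ℚ z
  · have hint := hz.isIntegral
    by_contra hne
    have hdeg : 1 < (minpoly ℚ z).natDegree := by
      rw [← Nat.succ_le_iff, minpoly.two_le_natDegree_iff hint]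
      rintro ⟨r, hr⟩
      exact hne ⟨r, by simpa using hr⟩
    have : Fact (Irreducible (minpoly ℚ z)) := ⟨minpoly.irreducible hint⟩
    have : Countable (AdjoinRoot (minpoly ℚ z)) := AdjoinRoot.mk_surjective.countable
    obtain ⟨w, hw, hwz⟩ : ∃ w ∈ (minpoly ℚ z).aroots ℂ, w ≠ z := by
      by_contra hall
      push Not at hall
      have hnd : ((minpoly ℚ z).aroots ℂ).Nodup :=
        Polynomial.nodup_roots ((minpoly.irreducible hint).separable.map)
      have hcard : Multiset.card ((minpoly ℚ z).aroots ℂ) = (minpoly ℚ z).natDegree := by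
        rw [Polynomial.aroots_def, ← (IsAlgClosed.splits _).natDegree_eq_card_roots,
          Polynomial.natDegree_map]
      have hle : Multiset.card ((minpoly ℚ z).aroots ℂ) ≤ Multiset.card ({z} : Multiset ℂ) :=
        Multiset.card_le_card ((Multiset.le_iff_subset hnd).mpr
          fun w hw => by simp [hall w hw])
      simp only [Multiset.card_singleton] at hle
      omega
    obtain ⟨σ, hσ⟩ := exists_ringEquiv_complex_extending
      (AdjoinRoot.lift (algebraMap ℚ ℂ) z (minpoly.aeval ℚ z))
      (AdjoinRoot.lift (algebraMap ℚ ℂ) w (Polynomial.mem_aroots.mp hw).2)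
    have := hσ (AdjoinRoot.root _)
    rw [AdjoinRoot.lift_root, AdjoinRoot.lift_root, h σ] at this
    exact hwz this.symm
  · have hz1 : Transcendental ℚ (z + 1) := fun halg => hz (by simpa using halg.sub isAlgebraic_one)
    have : Countable (RatFunc ℚ) :=
      (IsLocalization.mk'_surjective (M := nonZeroDivisors (Polynomial ℚ))
        (S := RatFunc ℚ)).countable
    obtain ⟨σ, hσ⟩ := exists_ringEquiv_complex_extending
      (IsFractionRing.lift (K := RatFunc ℚ)
        (g := (Polynomial.aeval z : Polynomial ℚ →ₐ[ℚ] ℂ).toRingHom)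
        (transcendental_iff_injective.mp hz))
      (IsFractionRing.lift (K := RatFunc ℚ)
        (g := (Polynomial.aeval (z + 1) : Polynomial ℚ →ₐ[ℚ] ℂ).toRingHom)
        (transcendental_iff_injective.mp hz1))
    have := hσ (algebraMap (Polynomial ℚ) (RatFunc ℚ) Polynomial.X)
    rw [IsFractionRing.lift_algebraMap, IsFractionRing.lift_algebraMap] at this
    simp [h σ] at this

/-- A finite-dimensional subspace of `ι → ℂ` stable under all automorphisms of `ℂ` has a basis
of rational vectors, dual to a finite set of coordinates. -/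
theorem exists_rat_coordinate_basis {ι : Type*} [DecidableEq ι] (W : Submodule ℂ (ι → ℂ))
    [FiniteDimensional ℂ W]
    (hW : ∀ σ : ℂ ≃+* ℂ, ∀ v ∈ W, (fun i => σ (v i)) ∈ W) :
    ∃ (S : Finset ι) (w : S → ι → ℚ),
      (∀ s, (fun i => (w s i : ℂ)) ∈ W) ∧ (∀ s t : S, w s t = if s = t then 1 else 0) ∧
        ∀ v ∈ W, ∀ i, v i = ∑ s : S, v s * (w s i : ℂ) := by
  classical
  let c : ι → Module.Dual ℂ W := fun i => (LinearMap.proj i).comp W.subtype
  obtain ⟨κ, a, ha, hspan, hli⟩ := exists_linearIndependent' ℂ c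
  have : Finite κ := hli.finite
  have : Fintype κ := Fintype.ofFinite κ
  let S : Finset ι := Finset.univ.image a
  let e : κ ≃ S := Equiv.ofBijective (fun k => ⟨a k, Finset.mem_image_of_mem a (Finset.mem_univ k)⟩)
    ⟨fun x y h => ha (congrArg Subtype.val h), fun ⟨s, hs⟩ => by
      obtain ⟨k, -, rfl⟩ := Finset.mem_image.mp hs
      exact ⟨k, rfl⟩⟩
  have hliS : LinearIndependent ℂ (fun s : S => c s) :=
    (linearIndependent_equiv e).mp hli
  let r : W →ₗ[ℂ] (S → ℂ) := LinearMap.pi fun s => c s
  have hinj : Function.Injective r := by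
    rw [injective_iff_map_eq_zero]
    intro v hv
    have h0 : ∀ i, c i v = 0 := by
      intro i
      have hi : c i ∈ Submodule.span ℂ (Set.range (c ∘ a)) :=
        hspan ▸ Submodule.subset_span ⟨i, rfl⟩
      have hle : Submodule.span ℂ (Set.range (c ∘ a)) ≤
          LinearMap.ker (Module.Dual.eval ℂ W v) := by
        rw [Submodule.span_le]
        rintro _ ⟨k, rfl⟩
        exact congrFun hv (e k)
      exact hle hi
    exact Subtype.ext (funext h0)
  have hsurj : Function.Surjective r := by
    refine (LinearMap.injective_iff_surjective_of_finrank_eq_finrank ?_).mp hinj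
    refine le_antisymm (LinearMap.finrank_le_finrank_of_injective hinj) ?_
    rw [Module.finrank_fintype_fun_eq_card, ← Subspace.dual_finrank_eq]
    exact hliS.fintype_card_le_finrank
  choose u hu using fun s : S => hsurj (Pi.single s 1)
  have hval : ∀ s t : S, (u s : ι → ℂ) t = if s = t then 1 else 0 := fun s t => by
    have := congrFun (hu s) t
    simpa [r, c, Pi.single_apply, eq_comm] using this
  have hrat : ∀ (s : S) (i : ι), ∃ q : ℚ, (q : ℂ) = (u s : ι → ℂ) i := by
    intro s i
    refine exists_rat_eq_of_forall_ringEquiv_fixed fun σ => ?_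
    have : (⟨_, hW σ _ (u s).2⟩ : W) = u s := hinj <| funext fun t => by
      show σ ((u s : ι → ℂ) t) = (u s : ι → ℂ) t
      rw [hval]
      split_ifs <;> simp
    exact congrFun (congrArg Subtype.val this) i
  choose w hw using hrat
  refine ⟨S, w, fun s => ?_, fun s t => ?_, fun v hv i => ?_⟩
  · convert (u s).2 using 1
    exact funext (hw s)
  · have := (hw s t).trans (hval s t)
    split_ifs at this ⊢ <;> exact_mod_cast this
  · have : (⟨v, hv⟩ : W) = ∑ s : S, v s • u s := hinj <| by
      rw [map_sum]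
      funext t
      simp [map_smul, hu, r, c, Pi.single_apply, Finset.sum_apply]
    have h2 := congrFun (congrArg Subtype.val this) i
    simpa [Submodule.coe_sum, Finset.sum_apply, ← hw] using h2

/-- A finite-dimensional subspace of `ι → ℂ` stable under all automorphisms of `ℂ` is spanned
by its rational vectors. -/
theorem le_span_rat_vectors {ι : Type*} (V : Submodule ℂ (ι → ℂ)) [FiniteDimensional ℂ V]
    (hV : ∀ σ : ℂ ≃+* ℂ, ∀ v ∈ V, (fun i => σ (v i)) ∈ V) :
    V ≤ Submodule.span ℂ {v | v ∈ V ∧ ∀ i, ∃ r : ℚ, v i = (r : ℂ)} := by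
  classical
  obtain ⟨S, w, hmem, -, hexp⟩ := exists_rat_coordinate_basis V hV
  intro v hv
  have : v = ∑ s : S, v s • fun i => (w s i : ℂ) := by
    funext i
    simp [Finset.sum_apply, hexp v hv i]
  rw [this]
  exact Submodule.sum_mem _ fun s _ =>
    Submodule.smul_mem _ _ (Submodule.subset_span ⟨hmem s, fun i => ⟨w s i, rfl⟩⟩)

end Fermat.Agent.LevelOne
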