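import Fermat.Agent.LevelOne.DeltaExpansion

/-!
# Integral bases of level-one modular forms

Level-one modular forms are spanned by forms with integral `q`-expansion (`span_intForms`), so a
field endomorphism of `ℂ` acts on them coefficientwise.
-/

set_option autoImplicit false

noncomputable section

open UpperHalfPlane ModularForm EisensteinSeries
open scoped MatrixGroups

namespace Fermat.Agent.LevelOne

/-- Power series with integer coefficients, as a subring of complex power series. -/
def intSeries : Subring (PowerSeries ℂ) := (PowerSeries.map (Int.castRingHom ℂ)).range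

theorem mem_intSeries_iff {p : PowerSeries ℂ} :
    p ∈ intSeries ↔ ∀ n, ∃ m : ℤ, p.coeff n = (m : ℂ) := by
  constructor
  · rintro ⟨q, rfl⟩ n
    exact ⟨q.coeff n, by simp⟩
  · intro h
    choose m hm using h
    exact ⟨PowerSeries.mk m, by ext n; simp [hm]⟩

theorem E_coeff_mem {k : ℕ} (hk : 3 ≤ k) (hk2 : Even k) (c : ℤ)
    (hc : -(2 * (k : ℚ) / bernoulli k) = c) : qExpansion 1 (E hk) ∈ intSeries := by
  rw [mem_intSeries_iff]
  intro n
  refine ⟨if n = 0 then 1 else c * (ArithmeticFunction.sigma (k - 1) n : ℤ), ?_⟩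
  rw [E_qExpansion_coeff hk hk2 n]
  split_ifs
  · simp
  · have h : ((-(2 * (k : ℚ) / bernoulli k) : ℚ) : ℂ) = ((c : ℚ) : ℂ) := by rw [hc]
    push_cast at h ⊢
    rw [h]

theorem E₄_mem_intSeries : qExpansion 1 E₄ ∈ intSeries :=
  E_coeff_mem _ ⟨2, rfl⟩ 240 (by norm_num [show bernoulli 4 = -1 / 30 by decide +kernel])

theorem E₆_mem_intSeries : qExpansion 1 E₆ ∈ intSeries :=
  E_coeff_mem _ ⟨3, rfl⟩ (-504) (by norm_num [show bernoulli 6 = 1 / 42 by decide +kernel])

theorem discriminant_mem_intSeries : qExpansion 1 ModularForm.discriminant ∈ intSeries :=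
  ⟨_, qExpansion_discriminant.symm⟩

/-- Forms with integral q-expansion. -/
def intForms (k : ℤ) : Set (ModularForm 𝒮ℒ k) := {f | qExpansion 1 f ∈ intSeries}

theorem mem_intForms {k : ℤ} {f : ModularForm 𝒮ℒ k} :
    f ∈ intForms k ↔ qExpansion 1 f ∈ intSeries := Iff.rfl

/-- Multiplication by the discriminant, landing in modular forms. -/
def discriminantMul (k : ℤ) : ModularForm 𝒮ℒ (k - 12) →ₗ[ℂ] ModularForm 𝒮ℒ k :=
  (cuspFormSubmodule 𝒮ℒ k).subtype ∘ₗ
    (CuspForm.equivCuspFormSubmodule 𝒮ℒ k).toLinearMap ∘ₗ
      (CuspForm.discriminantEquiv (k := k)).symm.toLinearMap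

theorem coe_discriminantMul {k : ℤ} (g : ModularForm 𝒮ℒ (k - 12)) :
    ⇑(discriminantMul k g) = ModularForm.discriminant * ⇑g := rfl

theorem qExpansion_discriminantMul {k : ℤ} (g : ModularForm 𝒮ℒ (k - 12)) :
    qExpansion 1 (discriminantMul k g) =
      qExpansion 1 ModularForm.discriminant * qExpansion 1 g := by
  rw [coe_discriminantMul, ← CuspForm.coe_discriminant]
  exact ModularForm.qExpansion_mul_coe one_pos one_mem_strictPeriods_SL _ _

theorem exists_intForm_coeff_zero_eq_one {k : ℕ} (hk : 4 ≤ k) (hk2 : Even k) :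
    ∃ g : ModularForm 𝒮ℒ (k : ℤ), g ∈ intForms k ∧ (qExpansion 1 g).coeff 0 = 1 := by
  obtain ⟨a, b, hab⟩ : ∃ a b : ℕ, 4 * a + 6 * b = k := by
    obtain ⟨r, rfl⟩ := hk2
    rcases Nat.even_or_odd r with ⟨s, rfl⟩ | ⟨s, rfl⟩
    · exact ⟨s, 0, by omega⟩
    · exact ⟨s - 1, 1, by omega⟩
  refine ⟨ModularForm.mcast (by omega) ((E₄.pow a).mul (E₆.pow b)), ?_, ?_⟩
  · rw [mem_intForms, ModularForm.qExpansion_mcast, ModularForm.qExpansion_mul one_pos
      one_mem_strictPeriods_SL, ModularForm.qExpansion_pow one_pos one_mem_strictPeriods_SL,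
      ModularForm.qExpansion_pow one_pos one_mem_strictPeriods_SL]
    exact mul_mem (pow_mem E₄_mem_intSeries _) (pow_mem E₆_mem_intSeries _)
  · rw [ModularForm.qExpansion_mcast, ModularForm.qExpansion_mul one_pos
      one_mem_strictPeriods_SL, ModularForm.qExpansion_pow one_pos one_mem_strictPeriods_SL,
      ModularForm.qExpansion_pow one_pos one_mem_strictPeriods_SL,
      PowerSeries.coeff_zero_eq_constantCoeff_apply, map_mul, map_pow, map_pow,
      ← PowerSeries.coeff_zero_eq_constantCoeff_apply,
      ← PowerSeries.coeff_zero_eq_constantCoeff_apply,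
      E_qExpansion_coeff_zero _ ⟨2, rfl⟩, E_qExpansion_coeff_zero _ ⟨3, rfl⟩, one_pow, one_pow,
      one_mul]

/-- `M_k(SL₂(ℤ))` is spanned by forms with integral q-expansion. -/
theorem span_intForms (k : ℤ) : Submodule.span ℂ (intForms k) = ⊤ := by
  suffices H : ∀ n : ℕ, ∀ k : ℤ, k < n → Submodule.span ℂ (intForms k) = ⊤ from
    H (k + 1).toNat.succ k (by omega)
  intro n
  induction n with
  | zero =>
    intro k hk
    have := ModularForm.levelOne_neg_weight_rank_zero (k := k) (by omega)
    rw [rank_zero_iff_forall_zero] at this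
    exact Submodule.eq_top_iff'.mpr fun f => by rw [this f]; exact zero_mem _
  | succ n ih =>
    intro k hk
    rcases lt_or_ge k n with hkn | hkn
    · exact ih k hkn
    obtain rfl : k = n := by omega
    refine Submodule.eq_top_iff'.mpr fun f => ?_
    rcases Nat.even_or_odd n with he | ho
    · rcases Nat.lt_or_ge n 4 with h4 | h4
      · obtain rfl | rfl : n = 0 ∨ n = 2 := by obtain ⟨r, rfl⟩ := he; omega
        · obtain ⟨c, hc⟩ := ModularFormClass.levelOne_weight_zero_const (f : ModularForm 𝒮ℒ 0)
          have hone : (ModularForm.mcast (by simp) (1 : ModularForm 𝒮ℒ 0) :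
              ModularForm 𝒮ℒ ((0 : ℕ) : ℤ)) ∈ intForms ((0 : ℕ) : ℤ) := by
            rw [mem_intForms, ModularForm.qExpansion_mcast, ModularForm.qExpansion_one]
            exact one_mem _
          have : f = c • (ModularForm.mcast (by simp) (1 : ModularForm 𝒮ℒ 0) :
              ModularForm 𝒮ℒ ((0 : ℕ) : ℤ)) := by
            ext z; simp [congrFun hc z]
          rw [this]
          exact Submodule.smul_mem _ _ (Submodule.subset_span hone)
        · rw [rank_zero_iff_forall_zero.mp ModularForm.levelOne_weight_two_rank_zero f]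
          exact zero_mem _
      · obtain ⟨g, hg, hg0⟩ := exists_intForm_coeff_zero_eq_one h4 he
        set c := (qExpansion 1 f).coeff 0
        set f' := f - c • g with hf'
        have hf0 : (qExpansion 1 f').coeff 0 = 0 := by
          rw [hf', FunLike.coe_sub, ModularForm.qExpansion_sub one_pos one_mem_strictPeriods_SL,
            FunLike.coe_smul, ModularForm.qExpansion_smul one_pos one_mem_strictPeriods_SL,
            map_sub, PowerSeries.coeff_smul, hg0]
          simp [c]
        have hd : discriminantMul n (CuspForm.discriminantEquiv (toCuspForm f' hf0)) = f' := by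
          ext z
          rw [coe_discriminantMul, ModularForm.discriminant_mul_discriminantEquiv]
          rfl
        have hmem : f' ∈ Submodule.span ℂ (intForms n) := by
          rw [← hd]
          have h1 : CuspForm.discriminantEquiv (toCuspForm f' hf0) ∈
              Submodule.span ℂ (intForms ((n : ℤ) - 12)) := by
            rw [ih _ (by omega)]; trivial
          have h2 := Submodule.mem_map_of_mem (f := discriminantMul n) h1
          rw [Submodule.map_span] at h2
          refine Submodule.span_mono ?_ h2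
          rintro _ ⟨x, hx, rfl⟩
          rw [mem_intForms, qExpansion_discriminantMul]
          exact mul_mem discriminant_mem_intSeries hx
        have : f = f' + c • g := by rw [hf']; abel
        rw [this]
        exact add_mem hmem (Submodule.smul_mem _ _ (Submodule.subset_span hg))
    · rw [ModularForm.levelOne_odd_weight_eq_zero (by exact_mod_cast ho) f]
      exact zero_mem _

/-- Coefficient-wise form of `span_intForms`. -/
theorem span_intCoeffForms (k : ℤ) :
    Submodule.span ℂ
      {f : ModularForm 𝒮ℒ k | ∀ n : ℕ, ∃ m : ℤ, (qExpansion 1 f).coeff n = (m : ℂ)} = ⊤ := by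
  rw [← span_intForms k]
  congr 1
  ext f
  exact mem_intSeries_iff.symm

/-- Applying a ring endomorphism of `ℂ` to the q-expansion of a level-one form gives a
level-one form. -/
theorem exists_qExpansion_eq_map {k : ℤ} (σ : ℂ →+* ℂ) (f : ModularForm 𝒮ℒ k) :
    ∃ g : ModularForm 𝒮ℒ k, qExpansion 1 g = (qExpansion 1 f).map σ := by
  have hf : f ∈ Submodule.span ℂ (intForms k) := by rw [span_intForms]; trivial
  induction hf using Submodule.span_induction with
  | mem x hx =>
    obtain ⟨p, hp⟩ := hx
    refine ⟨x, ?_⟩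
    rw [← hp]
    ext n
    simp
  | zero => exact ⟨0, by simp [qExpansion_zero]⟩
  | add x y _ _ hx hy =>
    obtain ⟨a, ha⟩ := hx
    obtain ⟨b, hb⟩ := hy
    refine ⟨a + b, ?_⟩
    rw [FunLike.coe_add, FunLike.coe_add,
      ModularForm.qExpansion_add one_pos one_mem_strictPeriods_SL,
      ModularForm.qExpansion_add one_pos one_mem_strictPeriods_SL, map_add, ha, hb]
  | smul c x _ hx =>
    obtain ⟨a, ha⟩ := hx
    refine ⟨σ c • a, ?_⟩
    rw [FunLike.coe_smul, FunLike.coe_smul,
      ModularForm.qExpansion_smul one_pos one_mem_strictPeriods_SL,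
      ModularForm.qExpansion_smul one_pos one_mem_strictPeriods_SL, ha]
    ext n
    simp

end Fermat.Agent.LevelOne
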