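import Fermat.Agent.LevelOne.IntegralBasis
import Fermat.Prelude.Def_ModularCurve_JqCoeff

/-!
# The modular invariant

The analytic `j = E₄³ / Δ`, its invariance under `SL(2, ℤ)` and its `q`-expansion, read from the
expansion of `q * j` (`qExpansion_qMulJ`).
-/

set_option autoImplicit false

noncomputable section

open UpperHalfPlane ModularForm EisensteinSeries Filter Topology Function
open scoped MatrixGroups Manifold

local notation "𝕢" => Periodic.qParam

namespace Fermat.Agent.LevelOne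

/-- The modular invariant `j = E₄³/Δ`. -/
def jFun (τ : ℍ) : ℂ := E₄ τ ^ 3 / ModularForm.discriminant τ

theorem jFun_mul_discriminant (τ : ℍ) : jFun τ * ModularForm.discriminant τ = E₄ τ ^ 3 :=
  div_mul_cancel₀ _ (discriminant_ne_zero τ)

theorem jFun_slash (γ : SL(2, ℤ)) : jFun ∣[(0 : ℤ)] γ = jFun := by
  have h1 := SlashInvariantFormClass.slash_action_eq (E₄.pow 3) (γ : GL (Fin 2) ℝ) ⟨γ, rfl⟩
  have h2 := SlashInvariantFormClass.slash_action_eq CuspForm.discriminant
    (γ : GL (Fin 2) ℝ) ⟨γ, rfl⟩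
  have hj : jFun = ⇑(E₄.pow 3) / ⇑CuspForm.discriminant := by
    funext τ
    simp only [jFun, Pi.div_apply, ModularForm.coe_pow, Pi.pow_apply]
    rfl
  rw [hj, show (0 : ℤ) = ((3 : ℕ) : ℤ) * 4 - 12 by norm_num, div_slash_SL2]
  simp only [SL_slash] at h1 h2 ⊢
  rw [h1, h2]

theorem jFun_smul (γ : SL(2, ℤ)) (τ : ℍ) : jFun (γ • τ) = jFun τ := by
  have := congrFun (jFun_slash γ) τ
  rwa [SL_slash_apply, neg_zero, zpow_zero, mul_one] at this

theorem mdifferentiable_jFun : MDiff jFun := by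
  have : jFun = ⇑(E₄.pow 3) / ⇑CuspForm.discriminant := by
    funext τ
    simp only [jFun, Pi.div_apply, ModularForm.coe_pow, Pi.pow_apply]
    rfl
  rw [this]
  exact fun τ => (E₄.pow 3).holo'.div CuspForm.discriminant.holo' discriminant_ne_zero τ

theorem jFun_vadd_one (τ : ℍ) : jFun ((1 : ℝ) +ᵥ τ) = jFun τ := by
  rw [← modular_T_smul, jFun_smul]

/-- The q-expansion of `E₄` is the Prelude series `eisenstein4`. -/
theorem qExpansion_E₄ :
    qExpansion 1 E₄ = ModularCurve.eisenstein4.map (Int.castRingHom ℂ) := by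
  ext n
  rw [E_qExpansion_coeff _ ⟨2, rfl⟩, PowerSeries.coeff_map]
  simp only [ModularCurve.eisenstein4, PowerSeries.coeff_mk]
  split_ifs
  · simp
  · norm_num [show bernoulli 4 = -1 / 30 by decide +kernel, ArithmeticFunction.sigma_apply]

/-- `q · j(τ)`, a function on `ℍ` holomorphic at infinity. -/
def qMulJ (τ : ℍ) : ℂ := 𝕢 1 τ * jFun τ

theorem periodic_comp_ofComplex_of_vadd {F : ℍ → ℂ} {h : ℝ} (hF : ∀ τ : ℍ, F (h +ᵥ τ) = F τ) :
    Periodic (F ∘ ofComplex) h := by
  intro w
  by_cases hw : 0 < w.im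
  · have h' : 0 < (w + (h : ℂ)).im := by simpa using hw
    rw [comp_apply, comp_apply, ofComplex_apply_of_im_pos h', ofComplex_apply_of_im_pos hw]
    rw [← hF ⟨w, hw⟩]
    congr 1
    ext
    simp [add_comm]
  · have h' : (w + (h : ℂ)).im ≤ 0 := by simpa using not_lt.mp hw
    rw [comp_apply, comp_apply, ofComplex_apply_of_im_nonpos h',
      ofComplex_apply_of_im_nonpos (not_lt.mp hw)]

theorem qParam_one_vadd (τ : ℍ) : 𝕢 1 (((1 : ℝ) +ᵥ τ : ℍ) : ℂ) = 𝕢 1 (τ : ℂ) := by
  simp [Periodic.qParam, mul_add, Complex.exp_add, Complex.exp_two_pi_mul_I]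

theorem periodic_qMulJ : Periodic (qMulJ ∘ ofComplex) (1 : ℝ) :=
  periodic_comp_ofComplex_of_vadd fun τ => by rw [qMulJ, qMulJ, qParam_one_vadd, jFun_vadd_one]

theorem periodic_qParam_one : Periodic ((fun τ : ℍ => 𝕢 1 (τ : ℂ)) ∘ ofComplex) (1 : ℝ) :=
  periodic_comp_ofComplex_of_vadd qParam_one_vadd

theorem mdifferentiable_qParam_one : MDiff fun τ : ℍ => 𝕢 1 (τ : ℂ) :=
  UpperHalfPlane.mdifferentiable_iff.mpr <| by
    refine (Periodic.differentiable_qParam (h := 1)).differentiableOn.congr fun z hz => ?_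
    simp [ofComplex_apply_of_im_pos hz]

theorem mdifferentiable_qMulJ : MDiff qMulJ :=
  mdifferentiable_qParam_one.mul mdifferentiable_jFun

theorem isBoundedAtImInfty_qMulJ : IsBoundedAtImInfty qMulJ := by
  have h1 : Tendsto (fun τ : ℍ => (E₄ τ) ^ 3 * (∏' n, (1 - eta_q n τ) ^ 24)⁻¹) atImInfty
      (𝓝 ((valueAtInfty E₄) ^ 3 * 1⁻¹)) := by
    refine Tendsto.mul (Tendsto.pow ?_ 3)
      (tendsto_atImInfty_tprod_one_sub_eta_q_pow.inv₀ one_ne_zero)
    have han := ModularFormClass.analyticAt_cuspFunction_zero E₄ one_pos one_mem_strictPeriods_SL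
    have := (han.continuousAt.tendsto.comp (qParam_tendsto_atImInfty one_pos))
    rw [UpperHalfPlane.cuspFunction_apply_zero one_pos han
      (SlashInvariantFormClass.periodic_comp_ofComplex E₄ one_mem_strictPeriods_SL)] at this
    refine this.congr fun τ => ?_
    exact SlashInvariantFormClass.eq_cuspFunction E₄ τ one_mem_strictPeriods_SL one_ne_zero
  refine (h1.congr fun τ => ?_).isBigO_one ℝ
  rw [qMulJ, jFun, discriminant_eq_q_prod]
  have hq : 𝕢 1 (τ : ℂ) ≠ 0 := Complex.exp_ne_zero _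
  field_simp

theorem qExpansion_qParam : qExpansion 1 (fun τ : ℍ => 𝕢 1 (τ : ℂ)) = PowerSeries.X := by
  have hsum : ∀ τ : ℍ, HasSum
      (fun m : ℕ => (if m = 1 then (1 : ℂ) else 0) • 𝕢 1 (τ : ℂ) ^ m) (𝕢 1 (τ : ℂ)) := by
    intro τ
    convert! hasSum_ite_eq (1 : ℕ) (𝕢 1 (τ : ℂ)) using 2 with m
    split_ifs with h <;> simp [h]
  ext m
  have := qExpansion_coeff_unique (⟨fun τ : ℍ => 𝕢 1 (τ : ℂ),
      mdifferentiable_qParam_one.continuous⟩ : C(ℍ, ℂ)) one_pos
    (analyticAt_cuspFunction_zero one_pos periodic_qParam_one mdifferentiable_qParam_one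
      (isBoundedAtImInfty_of_hasSum_qExpansion one_pos hsum)) hsum m
  exact this.symm.trans (PowerSeries.coeff_X m).symm

/-- The q-expansion of `q · j` is the Prelude series `jNum`. -/
theorem qExpansion_qMulJ :
    qExpansion 1 qMulJ = ModularCurve.jNum.map (Int.castRingHom ℂ) := by
  have hg : AnalyticAt ℂ (cuspFunction 1 qMulJ) 0 :=
    analyticAt_cuspFunction_zero one_pos periodic_qMulJ mdifferentiable_qMulJ
      isBoundedAtImInfty_qMulJ
  have hq : AnalyticAt ℂ (cuspFunction 1 fun τ : ℍ => 𝕢 1 (τ : ℂ)) 0 :=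
    analyticAt_cuspFunction_zero one_pos periodic_qParam_one mdifferentiable_qParam_one
      ((qParam_tendsto_atImInfty one_pos).isBigO_one ℝ)
  have hE := ModularFormClass.analyticAt_cuspFunction_zero (E₄.pow 3) one_pos
    one_mem_strictPeriods_SL
  have hD := ModularFormClass.analyticAt_cuspFunction_zero CuspForm.discriminant one_pos
    one_mem_strictPeriods_SL
  have key : qMulJ * ⇑CuspForm.discriminant = (fun τ : ℍ => 𝕢 1 (τ : ℂ)) * ⇑(E₄.pow 3) := by
    funext τ
    simp only [qMulJ, Pi.mul_apply, CuspForm.coe_discriminant, ModularForm.coe_pow, Pi.pow_apply,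
      mul_assoc, jFun_mul_discriminant]
  have h := congrArg (qExpansion 1) key
  rw [qExpansion_mul hg hD, qExpansion_mul hq hE, qExpansion_qParam,
    CuspForm.coe_discriminant, qExpansion_discriminant,
    ModularForm.qExpansion_pow one_pos one_mem_strictPeriods_SL, qExpansion_E₄, map_mul,
    PowerSeries.map_X] at h
  have h' : qExpansion 1 qMulJ * ModularCurve.dedekindEtaUnit.map (Int.castRingHom ℂ) =
      ModularCurve.eisenstein4.map (Int.castRingHom ℂ) ^ 3 :=
    mul_left_cancel₀ (PowerSeries.X_ne_zero) (by linear_combination h)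
  calc qExpansion 1 qMulJ
      = qExpansion 1 qMulJ * ((ModularCurve.dedekindEtaUnit *
          ModularCurve.dedekindEtaUnitInv).map (Int.castRingHom ℂ)) := by
        rw [ModularCurve.dedekindEtaUnit_mul_inv, map_one, mul_one]
    _ = ModularCurve.jNum.map (Int.castRingHom ℂ) := by
        rw [map_mul, ← mul_assoc, h', ModularCurve.jNum, map_mul, map_pow]

end Fermat.Agent.LevelOne
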