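import Mathlib
import Fermat.Prelude.Def_ModularCurve_X0

/-!
# The `q`-expansion of the discriminant

The `q`-expansion of the analytic discriminant is the formal power series
`q * ∏ (1 - q^n) ^ 24` (`qExpansion_discriminant`).
-/

set_option autoImplicit false

noncomputable section

open Filter Topology UpperHalfPlane

open scoped PowerSeries.WithPiTopology

namespace Fermat.Agent.LevelOne

/-- The partial products of `q * ∏ (1 - q^n)^24`. -/
def deltaPartial (n : ℕ) : Polynomial ℤ :=
  Polynomial.X * (∏ i ∈ Finset.range n, (1 - Polynomial.X ^ (i + 1))) ^ 24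

theorem eventually_coeff_deltaPartial (m : ℕ) :
    ∀ᶠ n in atTop,
      (deltaPartial n).coeff m = (PowerSeries.X * ModularCurve.dedekindEtaUnit).coeff m := by
  have h1 : Tendsto (fun n => ∏ i ∈ Finset.range n, ((1 : PowerSeries ℤ) - PowerSeries.X ^ (i + 1)))
      atTop (𝓝 ModularCurve.etaProd) :=
    (PowerSeries.WithPiTopology.multipliable_one_sub_X_pow ℤ).hasProd.tendsto_prod_nat
  have h2 : Tendsto (fun n => ((deltaPartial n : Polynomial ℤ) : PowerSeries ℤ))
      atTop (𝓝 (PowerSeries.X * ModularCurve.dedekindEtaUnit)) := by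
    have h3 := (h1.pow 24).const_mul (PowerSeries.X : PowerSeries ℤ)
    refine Tendsto.congr (fun n => ?_) h3
    simp only [deltaPartial, ← Polynomial.coeToPowerSeries.ringHom_apply, map_mul, map_pow,
      map_prod, map_sub, map_one]
    simp
  have h4 := ((PowerSeries.WithPiTopology.tendsto_iff_coeff_tendsto ℤ _ _ _).mp h2) m
  rw [nhds_discrete] at h4
  filter_upwards [tendsto_pure.mp h4] with n hn
  simpa using hn

theorem iteratedDeriv_polynomial_eval (p : Polynomial ℂ) (m : ℕ) :
    iteratedDeriv m (fun q => p.eval q) = fun q => (Polynomial.derivative^[m] p).eval q := by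
  induction m with
  | zero => simp
  | succ m ih =>
    rw [iteratedDeriv_succ, ih, Function.iterate_succ_apply']
    ext q
    exact Polynomial.deriv _

theorem tendstoLocallyUniformlyOn_deltaPartial :
    TendstoLocallyUniformlyOn
      (fun n q => ((deltaPartial n).map (Int.castRingHom ℂ)).eval q)
      (cuspFunction 1 ModularForm.discriminant) atTop (Metric.ball 0 1) := by
  set P : ℂ → ℂ := fun q => ∏' n : ℕ, (1 - q ^ (n + 1)) with hP
  have hPc : ContinuousOn P (Metric.ball 0 1) :=
    ModularForm.differentiableOn_tprod_one_sub_pow.continuousOn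
  have h1 : TendstoLocallyUniformlyOn
      (fun N (q : ℂ) => ∏ i ∈ Finset.range N, (1 - q ^ (i + 1))) P atTop (Metric.ball 0 1) :=
    ModularForm.multipliableLocallyUniformlyOn_one_sub_pow.hasProdLocallyUniformlyOn.tendstoLocallyUniformlyOn_finsetRange
  have hpow : ∀ e : ℕ, TendstoLocallyUniformlyOn
      (fun N (q : ℂ) => q * (∏ i ∈ Finset.range N, (1 - q ^ (i + 1))) ^ e)
      (fun q => q * P q ^ e) atTop (Metric.ball 0 1) := by
    intro e
    induction e with
    | zero =>
      intro u hu x _
      exact ⟨Metric.ball 0 1, self_mem_nhdsWithin,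
        Eventually.of_forall fun n y _ => by simpa using refl_mem_uniformity hu⟩
    | succ e ih =>
      have := ih.fun_mul₀ h1 (continuousOn_id.fun_mul (hPc.pow e)) hPc
      simpa only [pow_succ, mul_assoc] using this
  refine ((hpow 24).congr (fun n q _ => ?_)).congr_right (fun q hq => ?_)
  · simp [deltaPartial, Polynomial.eval_prod, Polynomial.map_prod]
  · rw [ModularForm.discriminant_cuspFunction_eqOn hq]
    simp only [hP]
    rw [(ModularForm.multipliable_one_sub_pow (by simpa using hq)).tprod_pow]

/-- `Δ = q ∏ (1 - q^n)^24` at the level of `q`-expansions. -/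
theorem qExpansion_discriminant :
    qExpansion 1 ModularForm.discriminant =
      (PowerSeries.X * ModularCurve.dedekindEtaUnit).map (Int.castRingHom ℂ) := by
  ext m
  have key : ∀ k : ℕ, TendstoLocallyUniformlyOn
      (fun n => iteratedDeriv k fun q => ((deltaPartial n).map (Int.castRingHom ℂ)).eval q)
      (iteratedDeriv k (cuspFunction 1 ModularForm.discriminant)) atTop (Metric.ball 0 1) := by
    intro k
    induction k with
    | zero => simpa using tendstoLocallyUniformlyOn_deltaPartial
    | succ k ih =>
      simp only [iteratedDeriv_succ]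
      refine ih.deriv (Eventually.of_forall fun n => ?_) Metric.isOpen_ball
      rw [iteratedDeriv_polynomial_eval]
      exact (Polynomial.differentiable _).differentiableOn
  have h0 := (key m).tendsto_at (Metric.mem_ball_self (one_pos : (0:ℝ) < 1))
  set c := (PowerSeries.X * ModularCurve.dedekindEtaUnit).coeff m with hc
  have h2 : Tendsto (fun n => iteratedDeriv m
      (fun q => ((deltaPartial n).map (Int.castRingHom ℂ)).eval q) (0 : ℂ)) atTop
      (𝓝 ((m.factorial : ℂ) * (c : ℂ))) := by
    apply tendsto_const_nhds.congr'
    filter_upwards [eventually_coeff_deltaPartial m] with n hn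
    rw [iteratedDeriv_polynomial_eval]
    dsimp only
    rw [← Polynomial.coeff_zero_eq_eval_zero]
    rw [Polynomial.coeff_iterate_derivative]
    simp [hn, hc, Nat.descFactorial_self]
  have := tendsto_nhds_unique h0 h2
  rw [qExpansion_coeff, this, PowerSeries.coeff_map, ← hc]
  field_simp [Nat.cast_ne_zero.mpr m.factorial_ne_zero]
  simp

end Fermat.Agent.LevelOne
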