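import Fermat.Agent.LevelOne.JFunction

/-!
# Ramanujan's identities

The derivatives of `E₄`, `E₆` and the discriminant, and the derivative of `j`
(`hasDerivAt_jFun`).
-/

set_option autoImplicit false

noncomputable section

open UpperHalfPlane ModularForm EisensteinSeries Filter Topology Function Derivative
open scoped MatrixGroups Manifold Real

local notation "𝕢" => Periodic.qParam

namespace Fermat.Agent.LevelOne

theorem tendsto_atImInfty_coeff_zero {F : ℍ → ℂ} {h : ℝ} (hh : 0 < h)
    (hper : Periodic (F ∘ ofComplex) h) (hF : MDiff F) (hb : IsBoundedAtImInfty F) :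
    Tendsto F atImInfty (𝓝 ((qExpansion h F).coeff 0)) := by
  have han := analyticAt_cuspFunction_zero hh hper hF hb
  rw [qExpansion_coeff_zero hh han hper, ← cuspFunction_apply_zero hh han hper]
  exact (han.continuousAt.tendsto.comp (qParam_tendsto_atImInfty hh)).congr fun τ =>
    eq_cuspFunction τ hh.ne' hper

theorem tendsto_atImInfty_modularForm {k : ℤ} (f : ModularForm 𝒮ℒ k) :
    Tendsto f atImInfty (𝓝 ((qExpansion 1 f).coeff 0)) :=
  tendsto_atImInfty_coeff_zero one_pos
    (SlashInvariantFormClass.periodic_comp_ofComplex f one_mem_strictPeriods_SL) f.holo'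
    (ModularFormClass.bdd_at_infty f)

theorem tendsto_E₂ : Tendsto EisensteinSeries.E2 atImInfty (𝓝 1) := by
  have hsum : ∀ τ : ℍ, HasSum (fun m : ℕ ↦
      (if m = 0 then 1 else -24 * ArithmeticFunction.sigma 1 m : ℂ) • 𝕢 1 (τ : ℂ) ^ m)
      (EisensteinSeries.E2 τ) := fun τ => by
    simpa only [Function.Periodic.qParam, Complex.ofReal_one, div_one] using
      hasSum_qExpansion_E2 (z := τ)
  have hper : Periodic (EisensteinSeries.E2 ∘ ofComplex) (1 : ℝ) :=
    periodic_comp_ofComplex_of_vadd fun τ =>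
      (hsum ((1 : ℝ) +ᵥ τ)).unique (by rw [qParam_one_vadd]; exact hsum τ)
  have han := analyticAt_cuspFunction_zero one_pos hper E2_mdifferentiable isBoundedAtImInfty_E2
  have h0 := qExpansion_coeff_unique (⟨EisensteinSeries.E2, E2_mdifferentiable.continuous⟩ :
    C(ℍ, ℂ)) one_pos han hsum 0
  simp only [if_true] at h0
  rw [h0]
  exact tendsto_atImInfty_coeff_zero one_pos hper E2_mdifferentiable isBoundedAtImInfty_E2

/-- The normalised derivative of a function with a limit at `i∞` tends to `0`. -/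
theorem tendsto_normalizedDeriv {F : ℍ → ℂ} (hF : MDiff F) {c : ℂ}
    (hc : Tendsto F atImInfty (𝓝 c)) : Tendsto (normalizedDerivOfComplex F) atImInfty (𝓝 0) := by
  suffices h : Tendsto (fun τ : ℍ => deriv (F ∘ ofComplex) τ) atImInfty (𝓝 0) by
    have h' := h.const_mul ((2 * π * Complex.I : ℂ)⁻¹)
    rw [mul_zero] at h'
    exact h' 
  rw [NormedAddGroup.tendsto_nhds_zero]
  intro ε hε
  have hev := Metric.tendsto_nhds.mp hc (ε / 2) (half_pos hε)
  obtain ⟨A, hA⟩ := (atImInfty_mem _).mp hev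
  refine (atImInfty_mem _).mpr ⟨max A 0 + 2, fun τ hτ => ?_⟩
  have hpos : ∀ z ∈ Metric.closedBall (τ : ℂ) 1, 0 < z.im ∧ A ≤ z.im := by
    intro z hz
    rw [Metric.mem_closedBall, dist_eq_norm] at hz
    have := (Complex.abs_im_le_norm (z - τ)).trans hz
    rw [Complex.sub_im, abs_le] at this
    have := le_max_left A 0
    have := le_max_right A 0
    simp only [coe_im] at *
    constructor <;> linarith
  have hd : DifferentiableOn ℂ (fun z => (F ∘ ofComplex) z - c) (Metric.closedBall (τ : ℂ) 1) :=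
    ((UpperHalfPlane.mdifferentiable_iff.mp hF).mono fun z hz => (hpos z hz).1).sub_const c
  have hbound : ‖deriv (fun z => (F ∘ ofComplex) z - c) (τ : ℂ)‖ ≤ (ε / 2) / 1 := by
    refine Complex.norm_deriv_le_of_forall_mem_sphere_norm_le one_pos
      (hd.mono Metric.closure_ball_subset_closedBall).diffContOnCl fun z hz => ?_
    obtain ⟨h1, h2⟩ := hpos z (Metric.sphere_subset_closedBall hz)
    have h3 : dist (F ⟨z, h1⟩) c < ε / 2 := hA ⟨z, h1⟩ h2
    rw [dist_eq_norm] at h3
    simpa [ofComplex_apply_of_im_pos h1] using h3.le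
  rw [deriv_sub_const, div_one] at hbound
  exact lt_of_le_of_lt hbound (half_lt_self hε)

theorem tendsto_serreDerivative {k : ℤ} (f : ModularForm 𝒮ℒ k) (w : ℂ) :
    Tendsto (serreDerivative w f) atImInfty (𝓝 (-(w * 12⁻¹ * (qExpansion 1 f).coeff 0))) := by
  have h1 := tendsto_normalizedDeriv f.holo' (tendsto_atImInfty_modularForm f)
  have h2 := (tendsto_E₂.const_mul (w * 12⁻¹)).mul (tendsto_atImInfty_modularForm f)
  have h3 := h1.sub h2
  simp only [mul_one, zero_sub] at h3
  exact h3

/-- The Serre derivative of a level-one modular form as a modular form of weight `k + 2`. -/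
def serreDerivForm {k : ℤ} (f : ModularForm 𝒮ℒ k) : ModularForm 𝒮ℒ (k + 2) where
  toFun := serreDerivative k f
  slash_action_eq' := by
    rintro _ ⟨γ, rfl⟩
    exact serreDerivative_slash_invariant f.holo'
      (SlashInvariantFormClass.slash_action_eq f (γ : GL (Fin 2) ℝ) ⟨γ, rfl⟩)
  holo' := serreDerivative_mdifferentiable k f.holo'
  bdd_at_cusps' {c} hc := by
    rw [Subgroup.IsArithmetic.isCusp_iff_isCusp_SL2Z] at hc
    rw [OnePoint.isBoundedAt_iff_forall_SL2Z hc]
    intro γ _
    have h : serreDerivative k f ∣[k + 2] γ = serreDerivative k f :=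
      serreDerivative_slash_invariant f.holo'
        (SlashInvariantFormClass.slash_action_eq f (γ : GL (Fin 2) ℝ) ⟨γ, rfl⟩)
    rw [h]
    exact (tendsto_serreDerivative f k).isBigO_one ℝ

theorem serreDerivative_eq_of_rank_one {k l : ℤ} (f : ModularForm 𝒮ℒ k) (g : ModularForm 𝒮ℒ l)
    (hl : k + 2 = l) (hrank : Module.rank ℂ (ModularForm 𝒮ℒ l) = 1)
    (hg : (qExpansion 1 g).coeff 0 = 1) (τ : ℍ) :
    serreDerivative k f τ = -((k : ℂ) * 12⁻¹ * (qExpansion 1 f).coeff 0) * g τ := by
  subst hl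
  have hg0 : g ≠ 0 := fun h => by
    rw [h] at hg
    simp [qExpansion_zero] at hg
  obtain ⟨c, hc⟩ := (finrank_eq_one_iff_of_nonzero' g hg0).mp
    (Module.rank_eq_one_iff_finrank_eq_one.mp hrank) (serreDerivForm f)
  have hpt : ∀ τ : ℍ, c * g τ = serreDerivative k f τ := fun τ => by
    have := congrArg (fun F : ModularForm 𝒮ℒ (k + 2) => F τ) hc
    exact this
  have h1 : Tendsto (fun τ => c * g τ) atImInfty (𝓝 (c * 1)) := by
    simpa [hg] using (tendsto_atImInfty_modularForm g).const_mul c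
  have hne : NeBot (atImInfty : Filter ℍ) := inferInstance
  have := tendsto_nhds_unique h1 ((tendsto_serreDerivative f k).congr fun τ => (hpt τ).symm)
  rw [mul_one] at this
  rw [← this, hpt]

theorem rank_weight_eight : Module.rank ℂ (ModularForm 𝒮ℒ 8) = 1 := by
  have := ModularForm.dimension_level_one 8 ⟨4, rfl⟩
  norm_num [Nat.ModEq] at this
  exact this

/-- Ramanujan: `D E₄ = (E₂E₄ - E₆)/3`. -/
theorem normalizedDeriv_E₄ (τ : ℍ) :
    normalizedDerivOfComplex E₄ τ = (EisensteinSeries.E2 τ * E₄ τ - E₆ τ) / 3 := by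
  have h := serreDerivative_eq_of_rank_one E₄ E₆ (by norm_num) levelOne_weight_six_rank_one
    (E_qExpansion_coeff_zero _ ⟨3, rfl⟩) τ
  rw [E_qExpansion_coeff_zero _ ⟨2, rfl⟩, serreDerivative_apply] at h
  push_cast at h
  linear_combination h

/-- Ramanujan: `D E₆ = (E₂E₆ - E₄²)/2`. -/
theorem normalizedDeriv_E₆ (τ : ℍ) :
    normalizedDerivOfComplex E₆ τ = (EisensteinSeries.E2 τ * E₆ τ - E₄ τ ^ 2) / 2 := by
  have h := serreDerivative_eq_of_rank_one E₆ (ModularForm.mcast (by norm_num) (E₄.pow 2) :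
      ModularForm 𝒮ℒ 8) (by norm_num) rank_weight_eight
    (by rw [ModularForm.qExpansion_mcast, ModularForm.qExpansion_pow one_pos
          one_mem_strictPeriods_SL, PowerSeries.coeff_zero_eq_constantCoeff_apply, map_pow,
          ← PowerSeries.coeff_zero_eq_constantCoeff_apply, E_qExpansion_coeff_zero _ ⟨2, rfl⟩,
          one_pow]) τ
  rw [E_qExpansion_coeff_zero _ ⟨3, rfl⟩, serreDerivative_apply] at h
  simp only [ModularForm.coe_mcast, ModularForm.coe_pow, Pi.pow_apply] at h
  push_cast at h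
  linear_combination h

theorem hasDerivAt_E₄ (τ : ℍ) : HasDerivAt (E₄ ∘ ofComplex)
    (2 * π * Complex.I * ((EisensteinSeries.E2 τ * E₄ τ - E₆ τ) / 3)) τ := by
  rw [← normalizedDeriv_E₄, normalizedDerivOfComplex,
    mul_inv_cancel_left₀ (by simp [Real.pi_ne_zero])]
  exact (UpperHalfPlane.mdifferentiableAt_iff.mp (E₄.holo' τ)).hasDerivAt

theorem hasDerivAt_E₆ (τ : ℍ) : HasDerivAt (E₆ ∘ ofComplex)
    (2 * π * Complex.I * ((EisensteinSeries.E2 τ * E₆ τ - E₄ τ ^ 2) / 2)) τ := by
  rw [← normalizedDeriv_E₆, normalizedDerivOfComplex,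
    mul_inv_cancel_left₀ (by simp [Real.pi_ne_zero])]
  exact (UpperHalfPlane.mdifferentiableAt_iff.mp (E₆.holo' τ)).hasDerivAt

theorem hasDerivAt_discriminant (τ : ℍ) : HasDerivAt (ModularForm.discriminant ∘ ofComplex)
    (2 * π * Complex.I * (EisensteinSeries.E2 τ * ModularForm.discriminant τ)) τ := by
  have h := (((hasDerivAt_E₄ τ).fun_pow 3).sub ((hasDerivAt_E₆ τ).fun_pow 2)).div_const 1728
  refine (h.congr_deriv ?_).congr_of_eventuallyEq (Eventually.of_forall fun z => ?_)
  · simp only [comp_apply, ofComplex_apply, discriminant_eq_E₄_cube_sub_E₆_sq]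
    ring
  · simp only [comp_apply, Pi.sub_apply, discriminant_eq_E₄_cube_sub_E₆_sq]

/-- `dj/dτ = -2πi E₄² E₆ / Δ`. -/
theorem hasDerivAt_jFun (τ : ℍ) : HasDerivAt (jFun ∘ ofComplex)
    (-(2 * π * Complex.I) * (E₄ τ ^ 2 * E₆ τ / ModularForm.discriminant τ)) τ := by
  have h := ((hasDerivAt_E₄ τ).fun_pow 3).div (hasDerivAt_discriminant τ)
    (by simpa using discriminant_ne_zero τ)
  refine (h.congr_deriv ?_).congr_of_eventuallyEq (Eventually.of_forall fun z => rfl)
  have := discriminant_ne_zero τ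
  simp only [comp_apply, ofComplex_apply]
  field_simp
  ring

end Fermat.Agent.LevelOne
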